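import Fermat.Agent.DeligneSerre.Residual.Periods
import Fermat.Agent.DeligneSerre.Lift
import Fermat.Agent.EigenReps.Approx
import Fermat.Agent.EigenReps.Split

/-!
# The residual representation of a weight two congruence system

Every automorphism acts on the torsion as `σ + d(σ) σ⁻¹` for a word in the operators, whose
eigenvalue in the system is a two dimensional pseudo-character with a split element.
-/

set_option autoImplicit false

noncomputable section

open CongruenceSubgroup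
open scoped MatrixGroups

namespace FLTAgent.DeligneSerre.Resid

open FLTAgent.PeriodHecke FLTAgent.EigenReps

set_option maxHeartbeats 1000000

attribute [local irreducible] ev theta

local notation "LL" => AlgebraicClosure ℚ
local notation "GG" => (AlgebraicClosure ℚ ≃ₐ[ℚ] AlgebraicClosure ℚ)

variable {M : ℕ}

/-- `σ` raises the `m`-th roots of unity to the `c`-th power. -/
def Cyc (m : ℕ) (σ : GG) (c : ℕ) : Prop := ∀ ζ : LL, ζ ^ m = 1 → σ ζ = ζ ^ c

theorem Cyc.mul {m : ℕ} {σ τ : GG} {c d : ℕ} (h : Cyc m σ c) (h' : Cyc m τ d) :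
    Cyc m (σ * τ) (c * d) := by
  intro ζ hζ
  rw [AlgEquiv.mul_apply, h' ζ hζ, h _ (by rw [← pow_mul, mul_comm, pow_mul, hζ, one_pow]),
    ← pow_mul, mul_comm]

theorem Cyc.one {m : ℕ} : Cyc m 1 1 := fun ζ _ => by simp

theorem exists_root {m : ℕ} [NeZero m] : ∃ ζ : LL, IsPrimitiveRoot ζ m := by
  have : NeZero (m : LL) := ⟨Nat.cast_ne_zero.mpr (NeZero.ne m)⟩
  exact HasEnoughRootsOfUnity.exists_primitiveRoot LL m

theorem Cyc.modEq {m : ℕ} [NeZero m] {σ : GG} {c c' : ℕ} (h : Cyc m σ c) (h' : Cyc m σ c') :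
    c ≡ c' [MOD m] := by
  obtain ⟨ζ, hζ⟩ := exists_root (m := m)
  have hu : IsUnit ζ := hζ.isUnit (NeZero.ne m)
  have he : hu.unit ^ c = hu.unit ^ c' :=
    Units.ext (by simpa using (h ζ hζ.pow_eq_one).symm.trans (h' ζ hζ.pow_eq_one))
  have h3 := pow_eq_pow_iff_modEq.mp he
  rwa [← orderOf_units, IsUnit.unit_spec, ← hζ.eq_orderOf] at h3

theorem Cyc.coprime {m : ℕ} [NeZero m] {σ : GG} {c : ℕ} (h : Cyc m σ c) : c.Coprime m := by
  obtain ⟨ζ, hζ⟩ := exists_root (m := m)
  refine (hζ.pow_iff_coprime (NeZero.pos m) c).mp ?_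
  rw [← h ζ hζ.pow_eq_one]
  exact hζ.map_of_injective σ.injective

/-- Diamonds compose. -/
theorem diamond_diamond {A : Type*} [AddCommGroup A] (γ δ : Gamma0 M) (φ : Hpar (Gamma1 M) A) :
    diamond M γ (diamond M δ φ) = diamond M (δ * γ) φ := by
  refine Subtype.ext (AddMonoidHom.ext fun x => ?_)
  obtain ⟨x, rfl⟩ := Additive.ofMul.surjective x
  simp only [diamond_apply]
  refine congrArg (fun y => φ.1 (Additive.ofMul y)) (Subtype.ext ?_)
  show (δ : SL(2, ℤ)) * ((γ : SL(2, ℤ)) * x * (γ : SL(2, ℤ))⁻¹) * (δ : SL(2, ℤ))⁻¹ =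
    (((δ * γ : Gamma0 M) : SL(2, ℤ))) * x * (((δ * γ : Gamma0 M) : SL(2, ℤ)))⁻¹
  simp [mul_assoc]

/-- The diamond depends on the lower right entry modulo the level only. -/
theorem diamond_eq {A : Type*} [AddCommGroup A] {γ δ : Gamma0 M}
    (h : (mat γ 1 1 : ZMod M) = (mat δ 1 1 : ZMod M)) (φ : Hpar (Gamma1 M) A) :
    diamond M γ φ = diamond M δ φ := by
  set e : Gamma0 M := γ * δ⁻¹
  have hγ : γ = e * δ := (inv_mul_cancel_right γ δ).symm
  have hent : ∀ a b : Gamma0 M, (mat (a * b) 1 1 : ZMod M) = mat a 1 1 * mat b 1 1 := fun a b => by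
    rw [mat_mul]
    simp [Matrix.mul_apply, Fin.sum_univ_two, mat_low]
  have hd := hent δ δ⁻¹
  rw [mul_inv_cancel, mat_one, Matrix.one_apply_eq, Int.cast_one] at hd
  have he : e ∈ Gamma1' M := by
    rw [Gamma1_mem']
    show (mat e 1 1 : ZMod M) = 1
    rw [hent, h, ← hd]
  rw [Gamma1_to_Gamma0_mem] at he
  set e₁ : Gamma1 M := ⟨(e : SL(2, ℤ)), (Gamma1_mem M _).mpr he⟩
  refine Subtype.ext (AddMonoidHom.ext fun x => ?_)
  obtain ⟨x, rfl⟩ := Additive.ofMul.surjective x
  rw [diamond_apply, diamond_apply]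
  have hconj : conjGamma1 M γ x = e₁ * conjGamma1 M δ x * e₁⁻¹ := Subtype.ext (by
    show (γ : SL(2, ℤ)) * x * (γ : SL(2, ℤ))⁻¹ =
      (e : SL(2, ℤ)) * ((δ : SL(2, ℤ)) * x * (δ : SL(2, ℤ))⁻¹) * (e : SL(2, ℤ))⁻¹
    rw [hγ]
    simp [mul_assoc])
  rw [hconj, ofMul_mul, ofMul_mul, ofMul_inv, map_add, map_add, map_neg]
  abel

variable (M) in
/-- The word of the determinant at the exponent `c`. -/
def dWord (c : ℕ) : Words M :=
  if h : c.Coprime M then (c : Words M) * FreeAlgebra.ι ℤ (Sum.inr (gammaLower c h)) else 0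

variable {l n : ℕ}

theorem ev_dWord {A : Type*} [AddCommGroup A] {c : ℕ} (h : c.Coprime M) (φ : Hpar (Gamma1 M) A) :
    ev M A (dWord M c) φ = c • diamond M (gammaLower c h) φ := by
  rw [dWord, dif_pos h, map_mul, map_natCast, ev_ι]
  exact DFunLike.congr_fun (nsmul_eq_mul c (genOp M A (Sum.inr (gammaLower c h)))).symm φ

theorem nsmul_congr {a b : ℕ} (h : a ≡ b [MOD l ^ n]) (φ : Hpar (Gamma1 M) (ZMod (l ^ n))) :
    a • φ = b • φ := by
  refine Subtype.ext (AddMonoidHom.ext fun x => ?_)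
  simp only [AddSubgroup.coe_nsmul, AddMonoidHom.smul_apply, nsmul_eq_mul]
  rw [(ZMod.natCast_eq_natCast_iff a b _).mpr h]

theorem ev_dWord_mul {A : Type*} [AddCommGroup A] {c d : ℕ} (hc : c.Coprime M) (hd : d.Coprime M) :
    ev M A (dWord M (c * d)) = ev M A (dWord M c) * ev M A (dWord M d) := by
  refine DFunLike.ext _ _ fun φ => ?_
  show _ = ev M A (dWord M c) (ev M A (dWord M d) φ)
  rw [ev_dWord (Nat.Coprime.mul_left hc hd), ev_dWord hd, ev_dWord hc, map_nsmul, ← mul_nsmul,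
    diamond_diamond, mul_comm d c]
  refine congrArg ((c * d) • ·) (diamond_eq ?_ φ)
  rw [mat_mul]
  simp only [Matrix.mul_apply, Fin.sum_univ_two]
  push_cast
  rw [mat_low, zero_mul, zero_add]
  simp [mat, gammaLower_entry, mul_comm]

theorem ev_dWord_congr {c d : ℕ} (hc : c.Coprime M) (hd : d.Coprime M)
    (h : c ≡ d [MOD M * l ^ n]) :
    ev M (ZMod (l ^ n)) (dWord M c) = ev M (ZMod (l ^ n)) (dWord M d) := by
  refine DFunLike.ext _ _ fun φ => ?_
  rw [ev_dWord hc, ev_dWord hd,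
    diamond_eq (γ := gammaLower c hc) (δ := gammaLower d hd) (by
      simp only [mat, gammaLower_entry, Int.cast_natCast]
      exact (ZMod.natCast_eq_natCast_iff c d M).mpr (h.of_mul_right _))]
  exact nsmul_congr (h.of_mul_left _) _

theorem ev_dWord_one {A : Type*} [AddCommGroup A] : ev M A (dWord M 1) = 1 := by
  refine DFunLike.ext _ _ fun φ => ?_
  rw [ev_dWord (Nat.coprime_one_left M), one_nsmul,
    diamond_eq (δ := 1) (by simp [mat, gammaLower_entry]) φ]
  refine Subtype.ext (AddMonoidHom.ext fun x => ?_)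
  obtain ⟨x, rfl⟩ := Additive.ofMul.surjective x
  rw [diamond_apply]
  exact congrArg (fun y => φ.1 (Additive.ofMul y)) (Subtype.ext (by
    show (1 : SL(2, ℤ)) * x * 1⁻¹ = x
    simp))

section Shapes

variable {E : Type*} [Ring E] {Γ : Type*} [Group Γ] (a : Γ →* E)

/-- One step of the recursion of lifts of powers. -/
theorem shape_step (τ : Γ) (j : ℕ) {C Cj Cj1 : E} (hC : ∀ g, Commute (a g) C)
    (hCj : ∀ g, Commute (a g) Cj1) (h1 : C * Cj = Cj1) :
    (a τ + C * a τ⁻¹) * (a (τ ^ (j + 1)) + Cj1 * a (τ ^ (j + 1))⁻¹) -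
        C * (a (τ ^ j) + Cj * a (τ ^ j)⁻¹) =
      a (τ ^ (j + 2)) + C * Cj1 * a (τ ^ (j + 2))⁻¹ := by
  have e1 : a τ * (Cj1 * a (τ ^ (j + 1))⁻¹) = Cj1 * a (τ ^ j)⁻¹ := by
    rw [← mul_assoc, (hCj τ).eq, mul_assoc, ← map_mul, pow_succ, mul_inv_rev, mul_inv_cancel_left]
  have e2 : a τ⁻¹ * a (τ ^ (j + 1)) = a (τ ^ j) := by
    rw [← map_mul, pow_succ', inv_mul_cancel_left]
  have e3 : a τ⁻¹ * (Cj1 * a (τ ^ (j + 1))⁻¹) = Cj1 * a (τ ^ (j + 2))⁻¹ := by
    rw [← mul_assoc, (hCj τ⁻¹).eq, mul_assoc, ← map_mul, ← mul_inv_rev, ← pow_succ]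
  rw [add_mul, mul_add, mul_add, mul_assoc, mul_assoc, e1, e2, e3, mul_add, ← mul_assoc C Cj, h1,
    ← map_mul, ← pow_succ', ← mul_assoc C Cj1]
  abel

/-- The identity of pseudo-characters for lifts. -/
theorem shape_identity (g h : Γ) {C D Cv Cw : E} (hD : Commute (a g) D)
    (hU : Commute (a g⁻¹) (a h + D * a h⁻¹)) (hw : C * D = Cw) (hv : D * Cv = C) :
    (a g + C * a g⁻¹) * (a h + D * a h⁻¹) =
      (a (g * h) + Cw * a (g * h)⁻¹) + D * (a (g * h⁻¹) + Cv * a (g * h⁻¹)⁻¹) := by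
  rw [add_mul, mul_assoc C, hU.eq, mul_add (a g), ← mul_assoc (a g) D, hD.eq, mul_assoc D,
    add_mul, mul_assoc D (a h⁻¹), mul_add C, ← mul_assoc C D, hw, mul_add D, ← mul_assoc D Cv, hv,
    ← map_mul, ← map_mul, ← map_mul, ← map_mul, mul_inv_rev, mul_inv_rev, inv_inv]
  abel

end Shapes

section Lift

variable (G : GaloisTorsion M (l ^ n))

/-- Galois commutes with the words. -/
theorem commute_ev (hl : l.Prime) (hlM : l ∣ M) (σ : GG) (w : Words M) :
    Commute (G.act σ) (ev M (ZMod (l ^ n)) w) := by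
  induction w using FreeAlgebra.induction with
  | grade0 r => rw [AlgHom.commutes]; exact (Algebra.commutes r (G.act σ)).symm
  | grade1 x =>
    rw [ev_ι]
    rcases x with q | γ
    · refine AddMonoidHom.ext fun φ => G.comm_hecke σ q.1 q.2.2 (fun h => q.2.2 ?_) φ
      rw [(Nat.prime_dvd_prime_iff_eq q.2.1 hl).mp (q.2.1.dvd_of_dvd_pow h)]
      exact hlM
    · exact AddMonoidHom.ext fun φ => G.comm_diamond σ γ φ
  | mul a b ha hb => rw [map_mul]; exact ha.mul_right hb
  | add a b ha hb => rw [map_add]; exact ha.add_right hb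

/-- `t` acts as `σ + d(c) σ⁻¹`. -/
def IsLift (σ : GG) (c : ℕ) (t : Words M) : Prop :=
  Cyc (M * l ^ n) σ c ∧
    ev M (ZMod (l ^ n)) t = G.act σ + ev M (ZMod (l ^ n)) (dWord M c) * G.act σ⁻¹

variable [NeZero M] [Fact l.Prime] (hlM : l ∣ M)

instance neZeroLevel : NeZero (M * l ^ n) :=
  ⟨mul_ne_zero (NeZero.ne M) (pow_ne_zero _ (Fact.out : l.Prime).ne_zero)⟩

theorem cop {σ : GG} {c : ℕ} (h : Cyc (M * l ^ n) σ c) : c.Coprime M :=
  Nat.Coprime.coprime_mul_right_right h.coprime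

omit [NeZero M] [Fact l.Prime] in
theorem isLift_one : IsLift G 1 1 2 := by
  refine ⟨Cyc.one, ?_⟩
  rw [ev_dWord_one, inv_one, map_one, mul_one, map_ofNat, one_add_one_eq_two]

theorem IsLift.congr {σ : GG} {c c' : ℕ} {t : Words M} (h : IsLift G σ c t)
    (h' : Cyc (M * l ^ n) σ c') : IsLift G σ c' t :=
  ⟨h', by rw [h.2, ev_dWord_congr (cop h.1) (cop h') (h.1.modEq h')]⟩

/-- The words attached to the powers of a Frobenius element. -/
def powWord (T C : Words M) : ℕ → Words M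
  | 0 => 2
  | 1 => T
  | j + 2 => T * powWord T C (j + 1) - C * powWord T C j

include hlM in
theorem isLift_pow {τ : GG} {ℓ : ℕ} {T : Words M} (h : IsLift G τ ℓ T) (j : ℕ) :
    IsLift G (τ ^ j) (ℓ ^ j) (powWord T (dWord M ℓ) j) := by
  induction j using Nat.twoStepInduction with
  | zero => simpa [powWord] using isLift_one G
  | one => simpa [powWord] using h
  | more j h0 h1 =>
    have hℓ : ∀ i : ℕ, (ℓ ^ i).Coprime M := fun i => (cop h.1).pow_left i
    refine ⟨by rw [pow_succ τ, pow_succ ℓ]; exact h1.1.mul h.1, ?_⟩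
    have hl : l.Prime := Fact.out
    rw [powWord, map_sub, map_mul, map_mul, h.2, h1.2, h0.2,
      shape_step G.act τ j (fun g => commute_ev G hl hlM g _) (fun g => commute_ev G hl hlM g _)
        (by rw [← ev_dWord_mul (cop h.1) (hℓ j), ← pow_succ']),
      ← ev_dWord_mul (cop h.1) (hℓ (j + 1)), ← pow_succ']

theorem isLift_frobenius {ℓ : ℕ} (hℓ : ℓ.Prime) (hℓM : ¬ ℓ ∣ M * l ^ n)
    {V : ValuationSubring LL} (hV : V.LiesOverPrime ℓ) {τ : GG} (hτ : V.IsFrobeniusAt τ ℓ) :
    IsLift G τ ℓ (FreeAlgebra.ι ℤ (Sum.inl ⟨ℓ, hℓ, fun h => hℓM (dvd_mul_of_dvd_left h _)⟩)) := by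
  have : Fact ℓ.Prime := ⟨hℓ⟩
  have hℓ' : ¬ ℓ ∣ M := fun h => hℓM (dvd_mul_of_dvd_left h _)
  refine ⟨fun ζ hζ => frobenius_zeta hℓ hℓM hV hτ hζ, AddMonoidHom.ext fun φ => ?_⟩
  rw [ev_ι]
  show (heckeFam1 hℓ').heckePar φ =
    G.act τ φ + ev M (ZMod (l ^ n)) (dWord M ℓ) (G.act τ⁻¹ φ)
  rw [ev_dWord (coprime_of_not_dvd hℓ')]
  exact G.frobenius ℓ hℓ' (fun h => hℓM (dvd_mul_of_dvd_right h _)) V hV τ hτ φ

include hlM in
theorem exists_lift (σ : GG) : ∃ (c : ℕ) (t : Words M), IsLift G σ c t := by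
  obtain ⟨L, hL, hfix⟩ := G.level
  obtain ⟨ζ, hζ⟩ := exists_root (m := M * l ^ n)
  have : FiniteDimensional ℚ (IntermediateField.adjoin ℚ ({ζ} : Set LL)) :=
    IntermediateField.adjoin.finiteDimensional
      ((AlgebraicClosure.isAlgebraic ℚ).isAlgebraic ζ).isIntegral
  obtain ⟨ℓ, V, τ, j, hℓ, hℓS, hV, hτ, hj⟩ :=
    Frobenius.exists_frobenius_pow_eqOn (L ⊔ IntermediateField.adjoin ℚ ({ζ} : Set LL)) σ
      (M * l ^ n).primeFactors
  have hℓM : ¬ ℓ ∣ M * l ^ n := fun h =>
    hℓS (Nat.mem_primeFactors.mpr ⟨hℓ, h, NeZero.ne _⟩)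
  obtain ⟨hcy, hact⟩ := isLift_pow G hlM (isLift_frobenius G hℓ hℓM hV hτ) j
  have heq : G.act σ = G.act (τ ^ j) := by
    have h1 := hfix ((τ ^ j)⁻¹ * σ) fun a ha => by
      rw [AlgEquiv.mul_apply, hj a ((le_sup_left : L ≤ L ⊔ _) ha)]
      exact (τ ^ j).symm_apply_apply a
    calc G.act σ = G.act (τ ^ j * ((τ ^ j)⁻¹ * σ)) := by rw [mul_inv_cancel_left]
      _ = _ := by rw [map_mul, h1, mul_one]
  have hinv : G.act σ⁻¹ = G.act (τ ^ j)⁻¹ := by
    calc G.act σ⁻¹ = G.act σ⁻¹ * (G.act (τ ^ j) * G.act (τ ^ j)⁻¹) := by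
          rw [← map_mul, mul_inv_cancel, map_one, mul_one]
      _ = _ := by rw [← mul_assoc, ← heq, ← map_mul, inv_mul_cancel, map_one, one_mul]
  refine ⟨ℓ ^ j, _, fun η hη => ?_, by rw [hact, heq, hinv]⟩
  obtain ⟨i, -, rfl⟩ := hζ.eq_pow_of_pow_eq_one hη
  rw [← hcy _ hη, map_pow, map_pow, hj ζ ((le_sup_right : _ ≤ L ⊔ _)
    (IntermediateField.subset_adjoin ℚ _ rfl))]

/-- The chosen exponent. -/
def liftExp (σ : GG) : ℕ := (exists_lift G hlM σ).choose

/-- The chosen word. -/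
def liftOp (σ : GG) : Words M := (exists_lift G hlM σ).choose_spec.choose

theorem isLift_liftOp (σ : GG) : IsLift G σ (liftExp G hlM σ) (liftOp G hlM σ) :=
  (exists_lift G hlM σ).choose_spec.choose_spec

variable {k : Type} [Field k] (S : CongrSystem M k)
  (hkey : ∀ w : Words M, ev M (ZMod (l ^ n)) w = 0 → theta S w = 0)

omit [NeZero M] [Fact l.Prime] in
include hkey in
theorem theta_congr {v w : Words M}
    (h : ev M (ZMod (l ^ n)) v = ev M (ZMod (l ^ n)) w) : theta S v = theta S w :=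
  sub_eq_zero.mp (by rw [← map_sub]; exact hkey _ (by rw [map_sub, h, sub_self]))

omit [NeZero M] [Fact l.Prime] in
theorem theta_dWord {c : ℕ} (h : c.Coprime M) :
    theta S (dWord M c) = (c : k) * S.φ ⟨_, S.chr_mem c⟩ := by
  rw [dWord, dif_pos h, map_mul, map_natCast, theta_ι]
  refine congrArg (fun z => (c : k) * S.φ z) (Subtype.ext ?_)
  show S.chr _ = S.chr _
  rw [gammaLower_entry, Int.cast_natCast]

include hkey in
theorem eq_of_isLift {σ : GG} {c c' : ℕ} {t t' : Words M} (h : IsLift G σ c t)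
    (h' : IsLift G σ c' t') :
    theta S t = theta S t' ∧ theta S (dWord M c) = theta S (dWord M c') := by
  have hd := ev_dWord_congr (cop h.1) (cop h'.1) (h.1.modEq h'.1)
  exact ⟨theta_congr S hkey (by rw [h.2, h'.2, hd]), theta_congr S hkey hd⟩

include hlM hkey in
theorem isLift_mul_identity {g h : GG} {c d d' : ℕ} {t u w v : Words M}
    (ht : IsLift G g c t) (hu : IsLift G h d u) (hd' : Cyc (M * l ^ n) h⁻¹ d')
    (hw : IsLift G (g * h) (c * d) w) (hv : IsLift G (g * h⁻¹) (c * d') v) :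
    theta S t * theta S u = theta S w + theta S (dWord M d) * theta S v := by
  have hl : l.Prime := Fact.out
  rw [← map_mul, ← map_mul, ← map_add]
  refine theta_congr S hkey ?_
  have hU : Commute (G.act g⁻¹)
      (G.act h + ev M (ZMod (l ^ n)) (dWord M d) * G.act h⁻¹) := by
    rw [← hu.2]
    exact commute_ev G hl hlM g⁻¹ u
  have hdd : ev M (ZMod (l ^ n)) (dWord M d) * ev M (ZMod (l ^ n)) (dWord M (c * d')) =
      ev M (ZMod (l ^ n)) (dWord M c) := by
    rw [← ev_dWord_mul (cop hu.1) (cop hv.1)]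
    refine ev_dWord_congr (Nat.Coprime.mul_left (cop hu.1) (cop hv.1)) (cop ht.1) ?_
    have h1 := hu.1.mul hd'
    rw [mul_inv_cancel] at h1
    calc d * (c * d') = c * (d * d') := by ring
      _ ≡ c * 1 [MOD M * l ^ n] := (h1.modEq Cyc.one).mul_left c
      _ = c := mul_one c
  rw [map_mul, map_add, map_mul, ht.2, hu.2, hw.2, hv.2]
  exact shape_identity G.act g h (commute_ev G hl hlM g _) hU
    (ev_dWord_mul (cop ht.1) (cop hu.1)).symm hdd

/-- The pseudo-character of the system. -/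
def pseudoChar : PseudoChar GG k where
  tr σ := theta S (liftOp G hlM σ)
  det :=
    { toFun := fun σ => theta S (dWord M (liftExp G hlM σ))
      map_one' := by
        rw [(eq_of_isLift G S hkey (isLift_liftOp G hlM 1) (isLift_one G)).2,
          theta_dWord S (Nat.coprime_one_left M), Nat.cast_one, one_mul]
        refine Eq.trans (congrArg S.φ (Subtype.ext ?_)) (map_one S.φ)
        show S.chr _ = (1 : ℂ)
        rw [Nat.cast_one, map_one]
      map_mul' := fun g h => by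
        have hg := isLift_liftOp G hlM g
        have hh := isLift_liftOp G hlM h
        have hgh := isLift_liftOp G hlM (g * h)
        rw [← map_mul (theta S)]
        refine theta_congr S hkey ?_
        rw [map_mul, ← ev_dWord_mul (cop hg.1) (cop hh.1)]
        exact ev_dWord_congr (cop hgh.1) (Nat.Coprime.mul_left (cop hg.1) (cop hh.1))
          (hgh.1.modEq (hg.1.mul hh.1)) }
  tr_one := by
    rw [(eq_of_isLift G S hkey (isLift_liftOp G hlM 1) (isLift_one G)).1, map_ofNat]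
  tr_mul g h := by
    have L := isLift_liftOp G hlM
    exact (isLift_mul_identity G hlM S hkey (L g) (L h) (L h⁻¹).1
      ((L (g * h)).congr G ((L g).1.mul (L h).1))
      ((L (g * h⁻¹)).congr G ((L g).1.mul (L h⁻¹).1))).symm

/-- Elements fixing the torsion and the roots of unity do not change the trace. -/
theorem pseudoChar_trivial {σ : GG} (hact : G.act σ = 1)
    (hcyc : Cyc (M * l ^ n) σ 1) (g : GG) :
    (pseudoChar G hlM S hkey).tr (g * σ) = (pseudoChar G hlM S hkey).tr g := by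
  refine (eq_of_isLift G S hkey (isLift_liftOp G hlM (g * σ))
    (c' := liftExp G hlM g) (t' := liftOp G hlM g) ?_).1
  obtain ⟨hc, hg⟩ := isLift_liftOp G hlM g
  have hinv : G.act σ⁻¹ = 1 := by
    calc G.act σ⁻¹ = G.act σ⁻¹ * G.act σ := by rw [hact, mul_one]
      _ = 1 := by rw [← map_mul, inv_mul_cancel, map_one]
  refine ⟨by simpa using hc.mul hcyc, ?_⟩
  rw [hg, map_mul, mul_inv_rev, map_mul, hact, hinv, mul_one, one_mul]

end Lift

/-- **Package C4.** -/
theorem targetResidual : TargetResidual := by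
  intro hT M _ hA k _ _ l _ _ hl2 hlM S
  have hl : l.Prime := Fact.out
  obtain ⟨c₀, hc₀⟩ := exists_shift (M := M) l
  set n := c₀ + 1
  obtain ⟨G⟩ := hT M hA (l ^ n) (pow_ne_zero _ hl.ne_zero)
  have hkey : ∀ w : Words M, ev M (ZMod (l ^ n)) w = 0 → theta S w = 0 := by
    intro w hw
    obtain ⟨v, hv⟩ := hc₀ n (Nat.le_succ c₀) w hw
    rw [Nat.add_sub_cancel_left, pow_one] at hv
    have h0 := theta_eq_zero S (w := w - l • v) (by rw [map_sub, map_nsmul, hv, sub_self])
    rwa [map_sub, map_nsmul, nsmul_eq_mul, CharP.cast_eq_zero, zero_mul, sub_zero] at h0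
  set P := pseudoChar G hlM S hkey
  have h2 : (1 : k) ≠ -1 := fun h => by
    have h2 : ((2 : ℕ) : k) = 0 := by push_cast; linear_combination h
    exact hl2 ((Nat.prime_dvd_prime_iff_eq hl Nat.prime_two).mp ((CharP.cast_eq_zero_iff k l 2).mp h2))
  -- complex conjugation
  set m := M * l ^ n
  have hm : 1 ≤ m := NeZero.pos m
  have hcc : Cyc m complexConjugation (m - 1) := fun ζ hζ => by
    have hne : ζ ≠ 0 := fun h => by rw [h, zero_pow (NeZero.ne m)] at hζ; exact zero_ne_one hζ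
    rw [complexConjugation_zeta hζ]
    exact inv_eq_of_mul_eq_one_left (by rw [← pow_succ, Nat.sub_add_cancel hm, hζ])
  have hdet : P.det complexConjugation = -1 := by
    have hL := isLift_liftOp G hlM complexConjugation
    show theta S (dWord M (liftExp G hlM complexConjugation)) = -1
    rw [(eq_of_isLift G S hkey hL (hL.congr G hcc)).2, theta_dWord S (cop hcc)]
    have hcast : ((m - 1 : ℕ) : k) = -1 := by
      rw [Nat.cast_sub hm, Nat.cast_one, Nat.cast_mul,
        (CharP.cast_eq_zero_iff k l M).mpr hlM, zero_mul, zero_sub]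
    have hz : ((m - 1 : ℕ) : ZMod M) = -1 := by
      rw [Nat.cast_sub hm, Nat.cast_one, Nat.cast_mul, ZMod.natCast_self, zero_mul, zero_sub]
    have hchr : S.chr (-1) = 1 := by
      have hne : (⇑S.g : UpperHalfPlane → ℂ) ≠ 0 := fun h => by
        have h1 := S.one_coeff
        rw [show (⟨_, S.coeff_mem 1⟩ : S.O) = 0 from Subtype.ext (by
          simp [ModularFormClass.qCoeff, h, UpperHalfPlane.qExpansion_zero]), map_zero] at h1
        exact zero_ne_one h1
      have h := S.nebentypus ⟨-1, by simp⟩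
      obtain ⟨τ, hτ⟩ := Function.ne_iff.mp hne
      have h' := congrFun h τ
      rw [ModularForm.SL_slash_apply] at h'
      simp [UpperHalfPlane.denom] at h' hτ
      exact (mul_right_cancel₀ hτ ((one_mul _).trans h')).symm
    have hS : (⟨_, S.chr_mem ((m - 1 : ℕ) : ZMod M)⟩ : S.O) = 1 :=
      Subtype.ext (by show S.chr _ = (1 : ℂ); rw [hz, hchr])
    rw [hcast, hS, map_one, mul_one]
  have htr : P.tr complexConjugation = 0 := by
    have h := P.det_eq complexConjugation
    rw [complexConjugation_mul_self, P.tr_one, hdet] at h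
    have : P.tr complexConjugation * P.tr complexConjugation = 0 := by linear_combination h
    simpa using this
  obtain ⟨r, htr', hdet', hspan⟩ := exists_rep_of_split P complexConjugation h2
    (by rw [htr]; ring) (by rw [hdet]; ring)
  have htriv : ∀ σ, (∀ g, P.tr (g * σ) = P.tr g) → r σ = 1 := fun σ hσ => by
    refine Matrix.ext fun i j => ?_
    have hall : ∀ F ∈ Submodule.span k (Set.range fun w : GG => fun g => P.tr (w * g)),
        F σ = F 1 := by
      intro F hF
      induction hF using Submodule.span_induction with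
      | mem F hF =>
        obtain ⟨w, rfl⟩ := hF
        show P.tr (w * σ) = P.tr (w * 1)
        rw [mul_one]
        exact hσ w
      | zero => rfl
      | add x y _ _ hx hy => simp only [Pi.add_apply, hx, hy]
      | smul c x _ hx => simp only [Pi.smul_apply, hx]
    simpa using hall _ (hspan i j)
  obtain ⟨L, hL, hfix⟩ := G.level
  obtain ⟨ζ, hζ⟩ := exists_root (m := m)
  have : FiniteDimensional ℚ (IntermediateField.adjoin ℚ ({ζ} : Set LL)) :=
    IntermediateField.adjoin.finiteDimensional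
      ((AlgebraicClosure.isAlgebraic ℚ).isAlgebraic ζ).isIntegral
  refine ⟨r.toHomUnits, ⟨L ⊔ IntermediateField.adjoin ℚ ({ζ} : Set LL), inferInstance,
    fun σ hσ => Units.ext (htriv σ (pseudoChar_trivial G hlM S hkey
      (hfix σ fun a ha => hσ a ((le_sup_left : L ≤ L ⊔ _) ha)) fun η hη => ?_))⟩,
    fun p hp hpM V hV => ?_⟩
  · obtain ⟨i, -, rfl⟩ := hζ.eq_pow_of_pow_eq_one hη
    rw [map_pow, hσ ζ ((le_sup_right : _ ≤ L ⊔ _) (IntermediateField.subset_adjoin ℚ _ rfl)),
      pow_one]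
  · have hpn : ¬ p ∣ M * l ^ n := fun h => (hp.dvd_mul.mp h).elim hpM fun h' =>
      hpM ((Nat.prime_dvd_prime_iff_eq hp hl).mp (hp.dvd_of_dvd_pow h') ▸ hlM)
    refine ⟨fun σ hσ => Units.ext (htriv σ (pseudoChar_trivial G hlM S hkey
      (G.inertia p hp hpn V hV σ hσ) fun η hη => ?_)), fun σ hσ => ?_⟩
    · rw [pow_one]
      exact inertia_fix_root hp hV hpn hη hσ
    · obtain ⟨h1, h2'⟩ := eq_of_isLift G S hkey (isLift_liftOp G hlM σ)
        (isLift_frobenius G hp hpn hV hσ)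
      refine ⟨((htr' σ).trans h1).trans ?_, ((hdet' σ).trans h2').trans ?_⟩
      · rw [theta_ι]; rfl
      · have := Fact.mk hp
        exact theta_dWord S (coprime_of_not_dvd hpM)

end FLTAgent.DeligneSerre.Resid
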