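import Fermat.Agent.DeligneSerre.Interface

/-!
# The operators on parabolic homomorphisms of `Γ₁(M)`

The words in Hecke operators and diamonds act on homomorphisms with values in every group,
naturally. A word which kills the homomorphisms modulo a high power of a prime is, on integral
homomorphisms, a multiple of a slightly smaller power.
-/

set_option autoImplicit false

noncomputable section

open CongruenceSubgroup
open scoped MatrixGroups

namespace FLTAgent.DeligneSerre.Resid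

open FLTAgent.PeriodHecke

variable (M : ℕ)

/-- The primes not dividing the level. -/
abbrev GoodQ : Type := {q : ℕ // q.Prime ∧ ¬ q ∣ M}

instance factGoodQ (q : GoodQ M) : Fact q.1.Prime := ⟨q.2.1⟩

/-- The generators: Hecke operators and diamonds. -/
abbrev Gen : Type := GoodQ M ⊕ Gamma0 M

/-- The words. -/
abbrev Words : Type := FreeAlgebra ℤ (Gen M)

/-- The generators as operators. -/
def genOp (A : Type*) [AddCommGroup A] : Gen M → AddMonoid.End (Hpar (Gamma1 M) A) :=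
  Sum.elim (fun q => (heckeFam1 q.2.2).heckePar) (fun γ => diamond M γ)

/-- The action of the words. -/
def ev (A : Type*) [AddCommGroup A] : Words M →ₐ[ℤ] AddMonoid.End (Hpar (Gamma1 M) A) :=
  FreeAlgebra.lift ℤ (genOp M A)

variable {M}

theorem ev_ι (A : Type*) [AddCommGroup A] (x : Gen M) :
    ev M A (FreeAlgebra.ι ℤ x) = genOp M A x := FreeAlgebra.lift_ι_apply _ _

theorem ev_intCast (A : Type*) [AddCommGroup A] (r : ℤ) (φ : Hpar (Gamma1 M) A) :
    ev M A (algebraMap ℤ (Words M) r) φ = r • φ := by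
  rw [AlgHom.commutes]
  exact DFunLike.congr_fun (eq_intCast (algebraMap ℤ (AddMonoid.End (Hpar (Gamma1 M) A))) r) φ

/-- The action is natural in the values. -/
theorem mapHpar_ev {A B : Type*} [AddCommGroup A] [AddCommGroup B] (f : A →+ B) (w : Words M)
    (φ : Hpar (Gamma1 M) A) : mapHpar f (ev M A w φ) = ev M B w (mapHpar f φ) := by
  induction w using FreeAlgebra.induction generalizing φ with
  | grade0 r => rw [ev_intCast, ev_intCast, map_zsmul]
  | grade1 x =>
    rw [ev_ι, ev_ι]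
    rcases x with q | γ
    · exact ((heckeFam1 q.2.2).heckePar_mapHpar f φ).symm
    · exact Subtype.ext (AddMonoidHom.ext fun _ => rfl)
  | mul a b ha hb =>
    rw [map_mul, map_mul]
    show mapHpar f (ev M A a (ev M A b φ)) = ev M B a (ev M B b (mapHpar f φ))
    rw [ha, hb]
  | add a b ha hb =>
    rw [map_add, map_add]
    show mapHpar f (ev M A a φ + ev M A b φ) = _
    rw [map_add, ha, hb]
    rfl

variable [NeZero M]

theorem fg_gamma1 : Group.FG (Gamma1 M) := by
  have : Group.FG SL(2, ℤ) :=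
    ⟨⟨{ModularGroup.S, ModularGroup.T}, by
      simpa using SpecialLinearGroup.SL2Z_generators⟩⟩
  exact Subgroup.fg_of_index_ne_zero (H := Gamma1 M)

/-- Finitely many values determine a homomorphism. -/
theorem exists_generators : ∃ s : Finset (Gamma1 M), ∀ {A : Type} [AddCommGroup A]
    {φ ψ : Additive (Gamma1 M) →+ A},
    (∀ x ∈ s, φ (Additive.ofMul x) = ψ (Additive.ofMul x)) → φ = ψ := by
  obtain ⟨s, hs⟩ := Group.fg_def.1 (fg_gamma1 (M := M))
  refine ⟨s, fun {A} _ φ ψ h => AddMonoidHom.toMultiplicativeRight.injective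
    (MonoidHom.eq_of_eqOn_dense hs fun x hx => congrArg Multiplicative.ofAdd (h x hx))⟩

theorem finite_lat : Module.Finite ℤ (Hpar (Gamma1 M) ℤ) := by
  obtain ⟨s, hs⟩ := exists_generators (M := M)
  exact Module.Finite.of_injective
    ({ toFun := fun φ (x : s) => φ.1 (Additive.ofMul (x : Gamma1 M))
       map_add' := fun _ _ => rfl
       map_smul' := fun _ _ => rfl } : Hpar (Gamma1 M) ℤ →ₗ[ℤ] (s → ℤ))
    fun φ ψ h => Subtype.ext (hs fun x hx => congrFun h ⟨x, hx⟩)

theorem isNoetherian_endLat : IsNoetherian ℤ (AddMonoid.End (Hpar (Gamma1 M) ℤ)) := by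
  have := finite_lat (M := M)
  obtain ⟨t, ht⟩ := Module.Finite.fg_top (R := ℤ) (M := Hpar (Gamma1 M) ℤ)
  refine isNoetherian_of_injective
    ({ toFun := fun f (x : t) => f (x : Hpar (Gamma1 M) ℤ)
       map_add' := fun _ _ => rfl
       map_smul' := fun _ _ => rfl } :
      AddMonoid.End (Hpar (Gamma1 M) ℤ) →ₗ[ℤ] (t → Hpar (Gamma1 M) ℤ)) fun f g h => ?_
  have : f.toIntLinearMap = g.toIntLinearMap :=
    LinearMap.ext_on ht fun x hx => congrFun h ⟨x, hx⟩
  exact AddMonoidHom.ext fun x => LinearMap.congr_fun this x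

/-- Integral homomorphisms detect the action on complex ones. -/
theorem ev_complex_eq_zero {w : Words M} (h : ev M ℤ w = 0) : ev M ℂ w = 0 := by
  refine AddMonoidHom.ext fun φ => ?_
  obtain ⟨s, hs⟩ := exists_generators (M := M)
  let V : Submodule ℤ ℂ :=
    Submodule.span ℤ (Set.range fun x : s => φ.1 (Additive.ofMul (x : Gamma1 M)))
  have : Module.Finite ℤ V := Module.Finite.iff_fg.mpr (Submodule.fg_span (Set.finite_range _))
  let b := Module.Free.chooseBasis ℤ V
  have hmem : ∀ γ : Gamma1 M, φ.1 (Additive.ofMul γ) ∈ V := by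
    have hgen : ∀ x ∈ s, φ.1 (Additive.ofMul x) ∈ V := fun x hx =>
      Submodule.subset_span ⟨⟨x, hx⟩, rfl⟩
    let π := (QuotientAddGroup.mk' V.toAddSubgroup).comp φ.1
    have h0 : π = 0 := hs fun x hx => (QuotientAddGroup.eq_zero_iff _).mpr (hgen x hx)
    exact fun γ => (QuotientAddGroup.eq_zero_iff _).mp (DFunLike.congr_fun h0 (Additive.ofMul γ))
  let φV : Additive (Gamma1 M) →+ V :=
    { toFun := fun x => ⟨φ.1 x, hmem x.toMul⟩
      map_zero' := Subtype.ext (map_zero φ.1)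
      map_add' := fun x y => Subtype.ext (map_add φ.1 x y) }
  let φi : Module.Free.ChooseBasisIndex ℤ V → Hpar (Gamma1 M) ℤ := fun i =>
    ⟨(b.coord i).toAddMonoidHom.comp φV, fun γ hγ => by
      show b.coord i ⟨φ.1 (Additive.ofMul γ), _⟩ = 0
      rw [show (⟨φ.1 (Additive.ofMul γ), hmem γ⟩ : V) = 0 from Subtype.ext (φ.2 γ hγ), map_zero]⟩
  have hφ : φ = ∑ i, mapHpar (zmultiplesHom ℂ (b i : ℂ)) (φi i) := by
    refine Subtype.ext (AddMonoidHom.ext fun x => ?_)
    rw [AddSubgroup.val_finsetSum, AddMonoidHom.finsetSum_apply]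
    have h := congrArg (fun v : V => (v : ℂ)) (b.sum_repr (φV x))
    simp only [Submodule.coe_sum, Submodule.coe_smul] at h
    exact h.symm
  rw [hφ]
  refine (map_sum (ev M ℂ w : Hpar (Gamma1 M) ℂ →+ Hpar (Gamma1 M) ℂ) _ _).trans
    (Finset.sum_eq_zero fun i _ => ?_)
  rw [← mapHpar_ev, h]
  exact map_zero _

/-- **The shift.** -/
theorem exists_shift (l : ℕ) [Fact l.Prime] :
    ∃ c : ℕ, ∀ (n : ℕ), c ≤ n → ∀ w : Words M, ev M (ZMod (l ^ n)) w = 0 →
      ∃ v : Words M, ev M ℤ w = (l ^ (n - c) : ℕ) • ev M ℤ v := by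
  have := isNoetherian_endLat (M := M)
  let R₀ : Submodule ℤ (AddMonoid.End (Hpar (Gamma1 M) ℤ)) :=
    LinearMap.range (ev M ℤ).toLinearMap
  let F : ℕ →o Submodule ℤ (AddMonoid.End (Hpar (Gamma1 M) ℤ)) :=
    { toFun := fun n => R₀.comap (((l : ℤ) ^ n) • LinearMap.id)
      monotone' := fun a b hab f hf => by
        show (l : ℤ) ^ b • f ∈ R₀
        rw [← Nat.sub_add_cancel hab, pow_add, mul_smul]
        exact R₀.smul_mem _ hf }
  obtain ⟨c, hc⟩ := monotone_stabilizes_iff_noetherian.2 ‹_› F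
  refine ⟨c, fun n hn w hw => ?_⟩
  have hdiv : ∀ (φ : Hpar (Gamma1 M) ℤ) (γ : Additive (Gamma1 M)),
      ((l ^ n : ℕ) : ℤ) ∣ (ev M ℤ w φ).1 γ := fun φ γ => by
    have h := mapHpar_ev (Int.castAddHom (ZMod (l ^ n))) w φ
    rw [hw] at h
    exact (ZMod.intCast_zmod_eq_zero_iff_dvd _ _).mp
      (DFunLike.congr_fun (congrArg Subtype.val h) γ)
  have hl : ((l ^ n : ℕ) : ℤ) ≠ 0 :=
    Int.natCast_ne_zero.mpr (pow_ne_zero _ (Fact.out : l.Prime).ne_zero)
  let f : AddMonoid.End (Hpar (Gamma1 M) ℤ) :=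
    AddMonoidHom.mk'
      (fun φ => ⟨AddMonoidHom.mk' (fun γ => (ev M ℤ w φ).1 γ / ((l ^ n : ℕ) : ℤ))
          (fun x y => by rw [map_add, Int.add_ediv_of_dvd_left (hdiv φ x)]),
        fun γ hγ => by
          show (ev M ℤ w φ).1 (Additive.ofMul γ) / _ = 0
          rw [(ev M ℤ w φ).2 γ hγ, Int.zero_ediv]⟩)
      (fun φ ψ => Subtype.ext (AddMonoidHom.ext fun x => by
        show (ev M ℤ w (φ + ψ)).1 x / _ = (ev M ℤ w φ).1 x / _ + (ev M ℤ w ψ).1 x / _
        rw [map_add, AddSubgroup.coe_add, AddMonoidHom.add_apply,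
          Int.add_ediv_of_dvd_left (hdiv φ x)]))
  have hf : ev M ℤ w = ((l : ℤ) ^ n) • f := by
    refine AddMonoidHom.ext fun φ => Subtype.ext (AddMonoidHom.ext fun x => ?_)
    show (ev M ℤ w φ).1 x = ((l : ℤ) ^ n) • ((ev M ℤ w φ).1 x / ((l ^ n : ℕ) : ℤ))
    rw [smul_eq_mul, ← Nat.cast_pow, Int.mul_ediv_cancel' (hdiv φ x)]
  have hmem : f ∈ F n := show (l : ℤ) ^ n • f ∈ R₀ from ⟨w, hf⟩
  have hmem' : f ∈ F (max n c) := F.monotone (le_max_left _ _) hmem
  rw [← hc _ (le_max_right _ _)] at hmem'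
  obtain ⟨v, hv⟩ := hmem'
  refine ⟨v, ?_⟩
  rw [show ev M ℤ v = ((l : ℤ) ^ c) • f from hv, hf, ← natCast_zsmul, smul_smul]
  push_cast
  rw [← pow_add, Nat.sub_add_cancel hn]

end FLTAgent.DeligneSerre.Resid
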