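import Fermat.Agent.DeligneSerre.Residual.Operators
import Fermat.Agent.ES.Primitive
import Fermat.Agent.PeriodHecke.Equivariance

/-!
# Periods of weight two systems

A function with Nebentypus, a primitive with limits at all cusps and a `q`-expansion congruent to a
multiple of a given system keeps these properties under the words. A word killing all complex
parabolic homomorphisms therefore has eigenvalue zero in the system.
-/

set_option autoImplicit false

noncomputable section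

open CongruenceSubgroup UpperHalfPlane Filter Complex Function ModularForm
open scoped MatrixGroups ModularForm Manifold Topology

namespace FLTAgent.DeligneSerre.Resid

open FLTAgent.PeriodHecke

local notation "M2" => Matrix (Fin 2) (Fin 2) ℤ
local notation "SL2Z" => Matrix.SpecialLinearGroup (Fin 2) ℤ

variable {M : ℕ}

/-- `φ` gives the periods of a primitive of `h` with limits at all cusps. -/
def Per (h : ℍ → ℂ) (φ : Hpar (Gamma1 M) ℂ) : Prop :=
  ∃ F : ℍ → ℂ, (∀ τ : ℍ, HasDerivAt (F ∘ ofComplex) (h τ) ↑τ) ∧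
    (∀ (γ : Gamma1 M) (τ : ℍ), F ((γ : SL2Z) • τ) - F τ = φ.1 (Additive.ofMul γ)) ∧
    ∀ δ : SL2Z, ∃ L, Tendsto (fun w => F (δ • w)) atImInfty (𝓝 L)

theorem Per.add {h h' : ℍ → ℂ} {φ φ' : Hpar (Gamma1 M) ℂ} (H : Per h φ) (H' : Per h' φ') :
    Per (h + h') (φ + φ') := by
  obtain ⟨F, hd, hp, hl⟩ := H
  obtain ⟨F', hd', hp', hl'⟩ := H'
  refine ⟨F + F', fun τ => (hd τ).add (hd' τ), fun γ τ => ?_, fun δ => ?_⟩
  · rw [AddSubgroup.coe_add, AddMonoidHom.add_apply, ← hp γ τ, ← hp' γ τ]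
    simp only [Pi.add_apply]
    ring
  · obtain ⟨L, hL⟩ := hl δ
    obtain ⟨L', hL'⟩ := hl' δ
    exact ⟨L + L', hL.add hL'⟩

theorem Per.zsmul {h : ℍ → ℂ} {φ : Hpar (Gamma1 M) ℂ} (H : Per h φ) (r : ℤ) :
    Per ((r : ℂ) • h) (r • φ) := by
  obtain ⟨F, hd, hp, hl⟩ := H
  refine ⟨(r : ℂ) • F, fun τ => (hd τ).const_smul (r : ℂ), fun γ τ => ?_, fun δ => ?_⟩
  · rw [AddSubgroup.coe_zsmul, AddMonoidHom.smul_apply, zsmul_eq_mul, ← hp γ τ]
    simp only [Pi.smul_apply, smul_eq_mul]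
    ring
  · obtain ⟨L, hL⟩ := hl δ
    exact ⟨(r : ℂ) • L, hL.const_smul _⟩

/-- Translation by an element of `Γ₀(M)` gives the diamond. -/
theorem Per.diamond {h : ℍ → ℂ} {φ : Hpar (Gamma1 M) ℂ} (H : Per h φ) (γ : Gamma0 M) :
    Per (h ∣[(2 : ℤ)] (γ : SL(2, ℤ))) (DeligneSerre.diamond M γ φ) := by
  obtain ⟨F, hd, hp, hl⟩ := H
  refine ⟨fun w => F ((γ : SL2Z) • w), fun τ => ES.hasDerivAt_comp_smul hd _ τ, fun δ τ => ?_,
    fun δ => ?_⟩
  · show F ((γ : SL2Z) • (δ : SL2Z) • τ) - F ((γ : SL2Z) • τ) = _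
    rw [diamond_apply, ← hp (conjGamma1 M γ δ) ((γ : SL2Z) • τ), smul_smul, smul_smul]
    show F (((γ : SL2Z) * δ) • τ) - _ = F (((γ : SL2Z) * δ * (γ : SL2Z)⁻¹ * γ) • τ) - _
    rw [inv_mul_cancel_right]
  · obtain ⟨L, hL⟩ := hl ((γ : SL2Z) * δ)
    exact ⟨L, hL.congr fun w => by rw [mul_smul]⟩

variable (q : ℕ) [Fact q.Prime]

/-- The relation between the representatives, as real matrices. -/
theorem glRep_mul {a b γ : SL2Z} {i j : HeckeIdx M q}
    (h : (a : M2) * heckeRep M q i * (γ : M2) = (b : M2) * heckeRep M q j) :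
    Matrix.SpecialLinearGroup.mapGL ℝ a * glRep M q i * Matrix.SpecialLinearGroup.mapGL ℝ γ =
      Matrix.SpecialLinearGroup.mapGL ℝ b * glRep M q j := by
  have h' := congrArg (fun X : M2 => X.map (Int.cast : ℤ → ℝ)) h
  simp only [Matrix.map_mul_intCast, ← val_glRep] at h'
  apply Units.ext
  simpa using h'

/-- An integral matrix of nonzero determinant moves the cusp `∞` as an element of `SL₂(ℤ)`
followed by an upper triangular matrix. -/
theorem exists_upper (A : M2) (hA : A.det ≠ 0) :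
    ∃ δ : SL2Z, ((δ⁻¹ : SL2Z) : M2) * A = !![((δ⁻¹ : SL2Z) : M2) 0 0 * A 0 0 +
        ((δ⁻¹ : SL2Z) : M2) 0 1 * A 1 0, ((δ⁻¹ : SL2Z) : M2) 0 0 * A 0 1 +
        ((δ⁻¹ : SL2Z) : M2) 0 1 * A 1 1;
      0, ((δ⁻¹ : SL2Z) : M2) 1 0 * A 0 1 + ((δ⁻¹ : SL2Z) : M2) 1 1 * A 1 1] := by
  have hne : 0 < Int.gcd (A 0 0) (A 1 0) := by
    refine Nat.pos_of_ne_zero fun h0 => hA ?_
    obtain ⟨h1, h2⟩ := Int.gcd_eq_zero_iff.mp h0
    rw [Matrix.det_fin_two, h1, h2]
    ring
  obtain ⟨g, x, y, -, hcop, hx, hy⟩ := Int.exists_gcd_one' hne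
  obtain ⟨u, v, huv⟩ := Int.isCoprime_iff_gcd_eq_one.mpr hcop
  let e : SL2Z := ⟨!![u, v; -y, x], by rw [Matrix.det_fin_two_of]; linear_combination huv⟩
  refine ⟨e⁻¹, ?_⟩
  rw [inv_inv]
  ext i j
  fin_cases i <;> fin_cases j <;> simp [e, Matrix.mul_apply, Fin.sum_univ_two]
  rw [hx, hy]
  ring

/-- Composition with a representative keeps the limits at the cusps. -/
theorem tendsto_comp_glRep {F : ℍ → ℂ}
    (hl : ∀ δ : SL2Z, ∃ L, Tendsto (fun w => F (δ • w)) atImInfty (𝓝 L)) (a δ : SL2Z)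
    (i : HeckeIdx M q) : ∃ L, Tendsto (fun w => F (a • glRep M q i • δ • w)) atImInfty (𝓝 L) := by
  have hdet : (heckeRep M q i * (δ : M2)).det ≠ 0 := by
    rw [Matrix.det_mul, δ.2, mul_one]
    exact (heckeFam M q).det_ne i
  obtain ⟨e, he⟩ := exists_upper _ hdet
  set U : GL (Fin 2) ℝ := (Matrix.SpecialLinearGroup.mapGL ℝ e)⁻¹ *
    (glRep M q i * Matrix.SpecialLinearGroup.mapGL ℝ δ) with hU
  have h10 : (U : Matrix (Fin 2) (Fin 2) ℝ) 1 0 = 0 := by
    have hval : (U : Matrix (Fin 2) (Fin 2) ℝ) =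
        (((e⁻¹ : SL2Z) : M2) * (heckeRep M q i * (δ : M2))).map (Int.cast : ℤ → ℝ) := by
      rw [hU, ← map_inv, Matrix.map_mul_intCast, Matrix.map_mul_intCast, ← val_glRep, Units.val_mul,
        Units.val_mul]
      rfl
    rw [hval, he]
    simp
  obtain ⟨L, hL⟩ := hl (a * e)
  refine ⟨L, (hL.comp (tendsto_smul_atImInfty h10)).congr fun w => ?_⟩
  show F ((a * e) • U • w) = _
  rw [mul_smul]
  refine congrArg (fun z => F (a • z)) ?_
  show Matrix.SpecialLinearGroup.mapGL ℝ e • U • w =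
    glRep M q i • Matrix.SpecialLinearGroup.mapGL ℝ δ • w
  rw [← mul_smul, ← mul_smul, hU, mul_inv_cancel_left]

/-- The Hecke operator of the function. -/
def heckeSum (hq : ¬ q ∣ M) (h : ℍ → ℂ) : ℍ → ℂ :=
  ∑ i, (h ∣[(2 : ℤ)] ((corr1 hq i : Gamma0 M) : SL(2, ℤ))) ∣[(2 : ℤ)] glRep M q i

theorem Per.hecke (hq : ¬ q ∣ M) {h : ℍ → ℂ} {φ : Hpar (Gamma1 M) ℂ} (H : Per h φ) :
    Per (heckeSum q hq h) ((heckeFam1 hq).heckePar φ) := by
  obtain ⟨F, hd, hp, hl⟩ := H
  refine ⟨fun w => ∑ i, F ((corr1 hq i : SL2Z) • glRep M q i • w), fun τ => ?_, fun γ τ => ?_,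
    fun δ => ?_⟩
  · rw [heckeSum, Finset.sum_apply]
    exact HasDerivAt.fun_sum fun i _ =>
      hasDerivAt_comp_glRep M q (fun σ => ES.hasDerivAt_comp_smul hd _ σ) i τ
  · have key : ∀ i, F ((corr1 hq i : SL2Z) • glRep M q i • (γ : SL2Z) • τ) =
        φ.1 (Additive.ofMul ((heckeFam1 hq).coc γ i)) +
          F ((corr1 hq ((heckeFam1 hq).next γ i) : SL2Z) •
            glRep M q ((heckeFam1 hq).next γ i) • τ) := by
      intro i
      have hrel := (heckeFam1 hq).rel γ i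
      have hm := glRep_mul q (a := (corr1 hq i : SL2Z)) (γ := (γ : SL2Z))
        (b := ((heckeFam1 hq).coc γ i : SL2Z) * (corr1 hq ((heckeFam1 hq).next γ i) : SL2Z))
        (i := i) (j := (heckeFam1 hq).next γ i) (by
          rw [Matrix.SpecialLinearGroup.coe_mul, Matrix.mul_assoc _ _ (heckeRep M q _)]
          exact hrel)
      have hm' : (corr1 hq i : SL2Z) • glRep M q i • (γ : SL2Z) • τ =
          ((heckeFam1 hq).coc γ i : SL2Z) • (corr1 hq ((heckeFam1 hq).next γ i) : SL2Z) •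
            glRep M q ((heckeFam1 hq).next γ i) • τ := by
        show Matrix.SpecialLinearGroup.mapGL ℝ (corr1 hq i : SL2Z) • glRep M q i •
            Matrix.SpecialLinearGroup.mapGL ℝ (γ : SL2Z) • τ =
          Matrix.SpecialLinearGroup.mapGL ℝ ((heckeFam1 hq).coc γ i : SL2Z) •
            Matrix.SpecialLinearGroup.mapGL ℝ (corr1 hq ((heckeFam1 hq).next γ i) : SL2Z) •
            glRep M q ((heckeFam1 hq).next γ i) • τ
        simp only [← mul_smul]
        refine congrArg (· • τ) ?_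
        rw [← mul_assoc, hm, map_mul, mul_assoc]
      rw [hm', ← hp]
      ring
    beta_reduce
    rw [HeckeFamily.coe_heckePar, HeckeFamily.hecke_apply, Finset.sum_congr rfl fun i _ => key i,
      Finset.sum_add_distrib]
    rw [show ∑ i, F ((corr1 hq ((heckeFam1 hq).next γ i) : SL2Z) •
        glRep M q ((heckeFam1 hq).next γ i) • τ) = ∑ i, F ((corr1 hq i : SL2Z) • glRep M q i • τ)
      from Equiv.sum_comp ((heckeFam1 hq).perm γ)
        (fun i => F ((corr1 hq i : SL2Z) • glRep M q i • τ))]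
    ring
  · choose L hL using fun i => tendsto_comp_glRep q hl (corr1 hq i : SL2Z) δ i
    exact ⟨∑ i, L i, tendsto_finsetSum _ fun i _ => hL i⟩

variable {k : Type} [Field k] (S : CongrSystem M k)

/-- The value of the character at an element of `Γ₀(M)`. -/
def chr0 (γ : Gamma0 M) : ℂ := S.chr (((γ : SL(2, ℤ)) 1 1 : ℤ) : ZMod M)

theorem chr0_mul (γ δ : Gamma0 M) : chr0 S (γ * δ) = chr0 S γ * chr0 S δ := by
  have h : ((mat γ * mat δ) 1 1 : ZMod M) = (mat γ 1 1 : ZMod M) * (mat δ 1 1 : ZMod M) := by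
    simp [Matrix.mul_apply, Fin.sum_univ_two, mat_low]
  rw [← mat_mul] at h
  show S.chr ((mat (γ * δ) 1 1 : ℤ) : ZMod M) = _
  rw [h, map_mul]
  rfl

theorem chr0_ne_zero (γ : Gamma0 M) : chr0 S γ ≠ 0 := by
  have h := chr0_mul S γ γ⁻¹
  rw [mul_inv_cancel] at h
  intro h0
  rw [h0, zero_mul] at h
  simp [chr0] at h

/-- The reduced coefficients of the system. -/
def redCoeff (n : ℕ) : k := S.φ ⟨_, S.coeff_mem n⟩

/-- A function with the Nebentypus of the system whose reduced expansion is `s` times the system. -/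
def Sys (s : k) (h : ℍ → ℂ) : Prop :=
  (∀ γ : Gamma0 M, h ∣[(2 : ℤ)] (γ : SL(2, ℤ)) = chr0 S γ • h) ∧
    ∃ c : ℕ → S.O, (∀ τ : ℍ, HasSum (fun n => (c n : ℂ) * Periodic.qParam 1 (τ : ℂ) ^ n) (h τ)) ∧
      ∀ n, S.φ (c n) = s * redCoeff S n

theorem Sys.add {s s' : k} {h h' : ℍ → ℂ} (H : Sys S s h) (H' : Sys S s' h') :
    Sys S (s + s') (h + h') := by
  obtain ⟨hn, c, hc, hr⟩ := H
  obtain ⟨hn', c', hc', hr'⟩ := H'
  refine ⟨fun γ => by rw [SlashAction.add_slash, hn, hn', smul_add], c + c', fun τ => ?_,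
    fun n => ?_⟩
  · refine ((hc τ).add (hc' τ)).congr_fun fun n => ?_
    simp [add_mul]
  · rw [Pi.add_apply, map_add, hr, hr', add_mul]

theorem Sys.zsmul {s : k} {h : ℍ → ℂ} (H : Sys S s h) (r : ℤ) :
    Sys S ((r : k) * s) ((r : ℂ) • h) := by
  obtain ⟨hn, c, hc, hr⟩ := H
  refine ⟨fun γ => by rw [ModularForm.SL_smul_slash, hn, smul_comm], fun n => (r : S.O) * c n,
    fun τ => ?_, fun n => ?_⟩
  · refine ((hc τ).mul_left (r : ℂ)).congr_fun fun n => ?_
    simp [mul_assoc]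
  · rw [map_mul, map_intCast, hr, mul_assoc]

theorem Sys.diamond {s : k} {h : ℍ → ℂ} (H : Sys S s h) (γ : Gamma0 M) :
    Sys S (S.φ ⟨_, S.chr_mem (((γ : SL(2, ℤ)) 1 1 : ℤ) : ZMod M)⟩ * s)
      (h ∣[(2 : ℤ)] (γ : SL(2, ℤ))) := by
  obtain ⟨hn, c, hc, hr⟩ := H
  refine ⟨fun δ => by rw [hn, ModularForm.SL_smul_slash, hn, smul_comm],
    fun n => ⟨_, S.chr_mem (((γ : SL(2, ℤ)) 1 1 : ℤ) : ZMod M)⟩ * c n, fun τ => ?_, fun n => ?_⟩
  · rw [hn]
    refine ((hc τ).mul_left (chr0 S γ)).congr_fun fun n => ?_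
    simp [mul_assoc, chr0]
  · rw [map_mul, hr, mul_assoc]

theorem heckeSum_neb (hq : ¬ q ∣ M) {h : ℍ → ℂ}
    (hn : ∀ γ : Gamma0 M, h ∣[(2 : ℤ)] (γ : SL(2, ℤ)) = chr0 S γ • h) (γ : Gamma0 M) :
    heckeSum q hq h ∣[(2 : ℤ)] (γ : SL(2, ℤ)) = chr0 S γ • heckeSum q hq h := by
  have hterm : ∀ i, (h ∣[(2 : ℤ)] ((corr1 hq i : Gamma0 M) : SL(2, ℤ))) ∣[(2 : ℤ)] glRep M q i =
      chr0 S (corr1 hq i) • (h ∣[(2 : ℤ)] glRep M q i) := fun i => by
    rw [hn, ModularForm.smul_slash]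
    congr 1
    rcases HeckeIdx.cases M q i with ⟨h', rfl⟩ | ⟨j, rfl⟩ <;>
      simp [glRep, idxSome, σ_heckeDiagMatrix, σ_heckeMatrix]
  have hperm : heckeSum q hq h = ∑ i, chr0 S (corr1 hq ((heckeFam M q).next γ i)) •
      (h ∣[(2 : ℤ)] glRep M q ((heckeFam M q).next γ i)) := by
    rw [heckeSum, Finset.sum_congr rfl fun i _ => hterm i]
    exact (Equiv.sum_comp ((heckeFam M q).perm γ)
      (fun i => chr0 S (corr1 hq i) • (h ∣[(2 : ℤ)] glRep M q i))).symm
  conv_rhs => rw [hperm, Finset.smul_sum]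
  rw [heckeSum, SlashAction.sum_slash]
  refine Finset.sum_congr rfl fun i _ => ?_
  set j := (heckeFam M q).next γ i
  set δ := (heckeFam M q).coc γ i
  have hrel : heckeRep M q i * mat γ = mat δ * heckeRep M q j := (heckeFam M q).rel γ i
  have hm := glRep_mul q (a := (corr1 hq i : SL2Z)) (γ := (γ : SL2Z))
    (b := (corr1 hq i : SL2Z) * (δ : SL2Z)) (i := i) (j := j) (by
      rw [Matrix.SpecialLinearGroup.coe_mul, Matrix.mul_assoc, Matrix.mul_assoc]
      exact congrArg (((corr1 hq i : SL2Z) : M2) * ·) hrel)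
  have he : chr0 S (corr1 hq i * δ) = chr0 S γ * chr0 S (corr1 hq j) := by
    set e : Gamma0 M := corr1 hq i * δ * (corr1 hq j)⁻¹
    have hee : heckeRep1 hq i * mat γ = mat e * heckeRep1 hq j := by
      simp only [e, heckeRep1, mat_mul, mul_assoc]
      rw [← mul_assoc (mat (corr1 hq j)⁻¹), ← mat_mul, inv_mul_cancel, mat_one, one_mul, hrel]
    have hu : IsUnit (q : ZMod M) := (ZMod.unitOfCoprime q (coprime_of_not_dvd hq)).isUnit
    have h1 := entries_mod hee (heckeRep1_diag hq i).1 (mat_low e)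
    rw [(heckeRep1_diag hq i).2, (heckeRep1_diag hq j).2, mul_comm] at h1
    have h2 : chr0 S γ = chr0 S e := congrArg S.chr (hu.mul_right_cancel h1)
    rw [h2, ← chr0_mul, inv_mul_cancel_right]
  show ((h ∣[(2 : ℤ)] Matrix.SpecialLinearGroup.mapGL ℝ (corr1 hq i : SL2Z)) ∣[(2 : ℤ)]
    glRep M q i) ∣[(2 : ℤ)] Matrix.SpecialLinearGroup.mapGL ℝ (γ : SL2Z) = _
  rw [← SlashAction.slash_mul, ← SlashAction.slash_mul, ← mul_assoc, hm, SlashAction.slash_mul]
  show (h ∣[(2 : ℤ)] ((corr1 hq i * δ : Gamma0 M) : SL(2, ℤ))) ∣[(2 : ℤ)] glRep M q j = _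
  rw [hn, he, ModularForm.smul_slash, smul_smul]
  congr 2
  rcases HeckeIdx.cases M q j with ⟨h', hj⟩ | ⟨x, hj⟩ <;> rw [hj] <;>
    simp [glRep, idxSome, σ_heckeDiagMatrix, σ_heckeMatrix]

/-- The sum of a geometric series over the `q`-th roots of unity. -/
theorem sum_root_pow {ω : ℂ} (hω : IsPrimitiveRoot ω q) (n : ℕ) :
    ∑ j : ZMod q, ω ^ (n * j.val) = if q ∣ n then (q : ℂ) else 0 := by
  rw [← sum_range_zmod q fun j => ω ^ (n * j)]
  split_ifs with h
  · obtain ⟨m, rfl⟩ := h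
    simp [pow_mul, hω.pow_eq_one]
  · simp only [pow_mul]
    have hne : ω ^ n ≠ 1 := fun h1 => h ((hω.pow_eq_one_iff_dvd n).mp h1)
    rw [geom_sum_eq hne, ← pow_mul, mul_comm, pow_mul, hω.pow_eq_one, one_pow, sub_self, zero_div]

/-- The expansion of the Hecke operator. -/
theorem hasSum_heckeSum (hq : ¬ q ∣ M) {h : ℍ → ℂ} {c : ℕ → ℂ}
    (hn : ∀ γ : Gamma0 M, h ∣[(2 : ℤ)] (γ : SL(2, ℤ)) = chr0 S γ • h)
    (hc : ∀ τ : ℍ, HasSum (fun n => c n * Periodic.qParam 1 (τ : ℂ) ^ n) (h τ)) (τ : ℍ) :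
    HasSum (fun n => (c (q * n) + S.chr q * q * (if q ∣ n then c (n / q) else 0)) *
      Periodic.qParam 1 (τ : ℂ) ^ n) (heckeSum q hq h τ) := by
  have hp : q.Prime := Fact.out
  have hq0 : (q : ℂ) ≠ 0 := Nat.cast_ne_zero.mpr hp.ne_zero
  set Q := Periodic.qParam 1 (τ : ℂ)
  -- the part of the representatives with lower entry `q`
  have hU : HasSum (fun n => c (q * n) * Q ^ n)
      (∑ j : ZMod q, (q : ℂ)⁻¹ * h (heckeMatrix q j.val • τ)) := by
    set x := Complex.exp (2 * Real.pi * Complex.I * τ / q)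
    set ω := Complex.exp (2 * Real.pi * Complex.I / q)
    have hω : IsPrimitiveRoot ω q := Complex.isPrimitiveRoot_exp q hp.ne_zero
    have hxQ : x ^ q = Q := by
      rw [← Complex.exp_nat_mul, show Q = Complex.exp (2 * Real.pi * Complex.I * τ / (1 : ℝ)) from rfl]
      congr 1
      push_cast
      field_simp
    have hpt : ∀ j : ℕ, Periodic.qParam 1 ((heckeMatrix q j • τ : ℍ) : ℂ) = x * ω ^ j := by
      intro j
      rw [coe_heckeMatrix_smul hp.ne_zero, ← Complex.exp_nat_mul, ← Complex.exp_add]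
      show Complex.exp _ = _
      congr 1
      push_cast
      field_simp
    have hs : HasSum (fun n => c n * x ^ n * (if q ∣ n then (1 : ℂ) else 0))
        (∑ j : ZMod q, (q : ℂ)⁻¹ * h (heckeMatrix q j.val • τ)) := by
      have h1 := hasSum_sum (s := (Finset.univ : Finset (ZMod q))) fun (j : ZMod q) _ =>
        (hc (heckeMatrix q j.val • τ)).mul_left (q : ℂ)⁻¹
      refine h1.congr_fun fun n => ?_
      simp only [hpt, mul_pow, ← pow_mul]
      rw [show ∑ j : ZMod q, (q : ℂ)⁻¹ * (c n * (x ^ n * ω ^ (j.val * n))) =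
        (q : ℂ)⁻¹ * (c n * x ^ n) * ∑ j : ZMod q, ω ^ (n * j.val) by
          rw [Finset.mul_sum]
          exact Finset.sum_congr rfl fun j _ => by rw [mul_comm n]; ring, sum_root_pow q hω]
      split_ifs
      · field_simp
      · ring
    have h2 := ((mul_right_injective₀ hp.ne_zero).hasSum_iff (fun n hn' => ?_)).mpr hs
    · refine h2.congr_fun fun n => ?_
      simp [Function.comp, ← hxQ, pow_mul]
    · rw [if_neg fun hd => hn' ⟨n / q, Nat.mul_div_cancel' hd⟩, mul_zero]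
  -- the representative with upper entry `q`
  have hV : HasSum (fun n => (if q ∣ n then c (n / q) else 0) * Q ^ n)
      (h (heckeDiagMatrix q • τ)) := by
    refine ((mul_right_injective₀ hp.ne_zero).hasSum_iff (fun n hn' => ?_)).mp ?_
    · rw [if_neg fun hd => hn' ⟨n / q, Nat.mul_div_cancel' hd⟩, zero_mul]
    · refine (hc (heckeDiagMatrix q • τ)).congr_fun fun n => ?_
      simp only [Function.comp, dvd_mul_right, if_true, Nat.mul_div_cancel_left _ hp.pos]
      congr 1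
      rw [pow_mul]
      congr 1
      rw [coe_heckeDiagMatrix_smul hp.ne_zero, show Q = Complex.exp (2 * Real.pi * Complex.I * τ / (1 : ℝ)) from rfl,
        ← Complex.exp_nat_mul]
      show Complex.exp _ = _
      congr 1
      ring
  have hval : heckeSum q hq h τ = (∑ j : ZMod q, (q : ℂ)⁻¹ * h (heckeMatrix q j.val • τ)) +
      S.chr q * q * h (heckeDiagMatrix q • τ) := by
    have e0 : chr0 S (gammaLower q (coprime_of_not_dvd hq)) = S.chr q := by
      rw [chr0, gammaLower_entry, Int.cast_natCast]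
    rw [heckeSum, sum_idx_of_not_dvd M q hq, Pi.add_apply, Finset.sum_apply]
    congr 1
    · refine Finset.sum_congr rfl fun j _ => ?_
      show (((h ∣[(2 : ℤ)] ((1 : Gamma0 M) : SL(2, ℤ))) ∣[(2 : ℤ)] heckeMatrix q j.val) τ) = _
      rw [OneMemClass.coe_one, SlashAction.slash_one, slash_heckeMatrix_apply 2 hp.ne_zero]
    · show (((h ∣[(2 : ℤ)] ((gammaLower q (coprime_of_not_dvd hq) : Gamma0 M) : SL(2, ℤ)))
        ∣[(2 : ℤ)] heckeDiagMatrix q) τ) = _
      rw [hn, slash_heckeDiagMatrix_apply 2 hp.ne_zero, Pi.smul_apply, smul_eq_mul, e0,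
        show ((2 : ℤ) - 1) = 1 from rfl, zpow_one]
      ring
  rw [hval]
  refine (hU.add (hV.mul_left (S.chr q * q))).congr_fun fun n => ?_
  ring

theorem Sys.hecke (hq : ¬ q ∣ M) {s : k} {h : ℍ → ℂ} (H : Sys S s h) :
    Sys S (S.b q * s) (heckeSum q hq h) := by
  obtain ⟨hn, c, hc, hr⟩ := H
  refine ⟨heckeSum_neb q S hq hn, fun n => c (q * n) +
    ⟨_, S.chr_mem q⟩ * (q : S.O) * (if q ∣ n then c (n / q) else 0), fun τ => ?_, fun n => ?_⟩
  · refine (hasSum_heckeSum q S hq hn hc τ).congr_fun fun n => ?_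
    by_cases hd : q ∣ n <;> simp [hd]
  · have h1 := S.recursion q Fact.out hq n
    rw [map_add, map_mul, map_mul, map_natCast S.φ, hr, apply_ite S.φ, map_zero, hr]
    simp only [redCoeff]
    by_cases hd : q ∣ n
    · rw [if_pos hd] at h1 ⊢
      linear_combination s * h1
    · rw [if_neg hd] at h1 ⊢
      linear_combination s * h1

/-- The eigenvalues of the words in the system. -/
def theta : Words M →ₐ[ℤ] k :=
  FreeAlgebra.lift ℤ (Sum.elim (fun q : GoodQ M => S.b q.1)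
    (fun γ => S.φ ⟨_, S.chr_mem (((γ : SL(2, ℤ)) 1 1 : ℤ) : ZMod M)⟩))

theorem theta_ι (x : Gen M) : theta S (FreeAlgebra.ι ℤ x) =
    Sum.elim (fun q : GoodQ M => S.b q.1)
      (fun γ : Gamma0 M => S.φ ⟨_, S.chr_mem (((γ : SL(2, ℤ)) 1 1 : ℤ) : ZMod M)⟩) x :=
  FreeAlgebra.lift_ι_apply _ _

theorem exists_word_image (w : Words M) : ∀ (h : ℍ → ℂ) (φ : Hpar (Gamma1 M) ℂ) (s : k),
    Sys S s h → Per h φ → ∃ h', Sys S (theta S w * s) h' ∧ Per h' (ev M ℂ w φ) := by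
  induction w using FreeAlgebra.induction with
  | grade0 r =>
    intro h φ s H P
    exact ⟨_, by simpa using H.zsmul S r, by rw [ev_intCast]; exact P.zsmul r⟩
  | grade1 x =>
    intro h φ s H P
    rw [theta_ι, ev_ι]
    rcases x with q | γ
    · exact ⟨_, H.hecke q.1 S q.2.2, P.hecke q.1 q.2.2⟩
    · exact ⟨_, H.diamond S γ, P.diamond γ⟩
  | mul a b ha hb =>
    intro h φ s H P
    obtain ⟨h₁, H₁, P₁⟩ := hb h φ s H P
    obtain ⟨h₂, H₂, P₂⟩ := ha h₁ _ _ H₁ P₁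
    exact ⟨h₂, by rw [map_mul, mul_assoc]; exact H₂, by rw [map_mul]; exact P₂⟩
  | add a b ha hb =>
    intro h φ s H P
    obtain ⟨h₁, H₁, P₁⟩ := ha h φ s H P
    obtain ⟨h₂, H₂, P₂⟩ := hb h φ s H P
    exact ⟨h₁ + h₂, by rw [map_add, add_mul]; exact H₁.add S H₂,
      by rw [map_add]; exact P₁.add P₂⟩

variable [NeZero M]

/-- A function with vanishing periods is zero. -/
theorem eq_zero_of_per {h : ℍ → ℂ} (H : Per h (0 : Hpar (Gamma1 M) ℂ)) : h = 0 := by
  obtain ⟨F, hd, hp, hl⟩ := H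
  have hinv : ∀ γ ∈ Gamma1 M, ∀ τ : ℍ, F (γ • τ) = F τ := fun γ hγ τ =>
    sub_eq_zero.mp (hp ⟨γ, hγ⟩ τ)
  set n := ES.globalPeriod (Gamma1 M)
  have hn : (0 : ℝ) < n := by exact_mod_cast ES.globalPeriod_pos
  have hper : ∀ σ : SL2Z, Periodic ((fun w => F (σ • w)) ∘ ofComplex) (n : ℝ) := by
    intro σ
    apply ES.periodic_of_slash_T_pow (k := 0)
    funext w
    rw [ModularForm.SL_slash_apply, neg_zero, zpow_zero, mul_one]
    have hmem : σ * ModularGroup.T ^ n * σ⁻¹ ∈ Gamma1 M := by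
      have h := ES.T_pow_globalPeriod_smul (Γ := Gamma1 M) ((σ⁻¹ : SL2Z) : SL2Z ⧸ Gamma1 M)
      rw [MulAction.Quotient.smul_coe, QuotientGroup.eq, smul_eq_mul] at h
      simpa [mul_assoc] using (Gamma1 M).inv_mem h
    have h1 := hinv _ hmem (σ • w)
    simpa [mul_smul] using h1
  have hFd : MDiff F := UpperHalfPlane.mdifferentiable_iff.mpr
    fun z hz => ((hd ⟨z, hz⟩).differentiableAt).differentiableWithinAt
  funext τ
  rw [← (hd τ).deriv]
  exact ES.const_of_re_invariant hn hFd (fun γ hγ w => by rw [hinv γ hγ w]) hper hl τ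

/-- The periods of the form of the system. -/
theorem exists_per : ∃ φ : Hpar (Gamma1 M) ℂ, Per ⇑S.g φ := by
  have hf := ES.cuspForm_mem S.g
  have hn : (0 : ℝ) < ES.globalPeriod (Gamma1 M) := by exact_mod_cast ES.globalPeriod_pos
  have hprim : ∀ σ : SL2Z, ∃ P : ℍ → ℂ,
      (∀ τ : ℍ, HasDerivAt (P ∘ ofComplex) (((⇑S.g : ℍ → ℂ) ∣[(2 : ℤ)] σ) τ) ↑τ) ∧
        Tendsto P atImInfty (𝓝 0) := fun σ =>
    ES.exists_primitive hn (ES.periodic_slash hf σ) (ES.mdiff_slash_SL hf.2.1 σ)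
      (CuspFormClass.zero_at_infty_slash S.g σ)
  obtain ⟨F, hF, -⟩ := hprim 1
  simp only [SlashAction.slash_one] at hF
  have hl : ∀ δ : SL2Z, ∃ L, Tendsto (fun w => F (δ • w)) atImInfty (𝓝 L) := by
    intro δ
    obtain ⟨P, hP, hP0⟩ := hprim δ
    obtain ⟨c, hc⟩ := ES.exists_const_of_hasDerivAt (fun τ => ES.hasDerivAt_comp_smul hF δ τ) hP
    refine ⟨c, ?_⟩
    have h := hP0.add_const c
    simp only [zero_add] at h
    exact h.congr fun w => by rw [← hc w]; ring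
  have hper : ∀ γ : Gamma1 M, ∃ c, ∀ τ, F ((γ : SL2Z) • τ) - F τ = c := fun γ =>
    ES.exists_const_of_hasDerivAt (g := ⇑S.g)
      (fun τ => (congrFun (hf.1 _ γ.2) τ) ▸ ES.hasDerivAt_comp_smul hF (γ : SL2Z) τ) hF
  choose c hc using hper
  let φ : Additive (Gamma1 M) →+ ℂ :=
    AddMonoidHom.mk' (fun x => c x.toMul) fun x y => by
      obtain ⟨a, rfl⟩ := Additive.ofMul.surjective x
      obtain ⟨b, rfl⟩ := Additive.ofMul.surjective y
      show c (a * b) = c a + c b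
      rw [← hc (a * b) UpperHalfPlane.I, ← hc a ((b : SL2Z) • UpperHalfPlane.I),
        ← hc b UpperHalfPlane.I, Subgroup.coe_mul, mul_smul]
      ring
  refine ⟨⟨φ, fun γ hγ => ?_⟩, F, hF, hc, hl⟩
  show c γ = 0
  rcases hγ.lt_or_eq with hlt | heq
  · have h12 : γ ^ 12 = 1 := mat_injective (by
      rw [show mat (γ ^ 12) = mat γ ^ 12 by simp [mat], mat_one]
      exact pow_twelve_eq_one _ (mat_det γ) hlt)
    have h := map_nsmul φ 12 (Additive.ofMul γ)
    rw [← ofMul_pow, h12, ofMul_one, map_zero] at h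
    exact (smul_eq_zero.mp h.symm).resolve_left (by norm_num)
  · obtain ⟨σ, hσ⟩ := ES.exists_conj_upper (γ := (γ : SL2Z)) heq
    set u : SL2Z := σ⁻¹ * γ * σ with hu
    have hcw : ∀ w : ℍ, F (σ • u • w) - F (σ • w) = c γ := fun w => by
      rw [← hc γ (σ • w), ← mul_smul, ← mul_smul, hu]
      group
    obtain ⟨L, hL⟩ := hl σ
    have hshift : Tendsto (fun w : ℍ => u • w) atImInfty atImInfty :=
      tendsto_smul_atImInfty (by simpa using hσ)
    have hd := (hL.comp hshift).sub hL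
    rw [sub_self] at hd
    exact tendsto_nhds_unique (tendsto_const_nhds.congr fun w => (hcw w).symm) hd

/-- An expansion of the zero function has zero coefficients. -/
theorem coeff_eq_zero (M : ℕ) [NeZero M] {c : ℕ → ℂ}
    (hc : ∀ τ : ℍ, HasSum (fun n => c n * Periodic.qParam 1 (τ : ℂ) ^ n) ((0 : ℍ → ℂ) τ)) (m : ℕ) :
    c m = 0 := by
  have h := ModularFormClass.qExpansion_coeff_unique (f := (0 : CuspForm (Gamma1 M) 2)) one_pos
    (by simp [strictPeriods_Gamma1]) (c := c) (fun τ => by simpa [smul_eq_mul] using hc τ) m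
  rwa [FunLike.coe_zero, UpperHalfPlane.qExpansion_zero, map_zero] at h

/-- A word killing the integral homomorphisms has eigenvalue zero. -/
theorem theta_eq_zero {w : Words M} (h : ev M ℤ w = 0) : theta S w = 0 := by
  obtain ⟨φ, hφ⟩ := exists_per S
  have hsys : Sys S 1 ⇑S.g := by
    refine ⟨fun γ => S.nebentypus γ, fun n => ⟨_, S.coeff_mem n⟩, fun τ => ?_,
      fun n => by rw [one_mul]; rfl⟩
    simpa [ModularFormClass.qCoeff, smul_eq_mul] using
      ModularForm.hasSum_qExpansion (f := S.g) (Γ := (Gamma1 M : Subgroup (GL (Fin 2) ℝ)))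
        one_pos (by simp [strictPeriods_Gamma1]) τ
  obtain ⟨h', ⟨-, c, hc, hr⟩, hP⟩ := exists_word_image S w _ φ 1 hsys hφ
  rw [ev_complex_eq_zero h] at hP
  have h0 : h' = 0 := eq_zero_of_per hP
  subst h0
  have hc1 : (c 1 : ℂ) = 0 := coeff_eq_zero M (c := fun n => (c n : ℂ)) hc 1
  have h1 := hr 1
  rw [show c 1 = 0 from Subtype.ext hc1, map_zero, mul_one, redCoeff, S.one_coeff, mul_one] at h1
  exact h1.symm

end FLTAgent.DeligneSerre.Resid
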